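import Mathlib
import Fermat.Prelude.Def_FLTPrelim_Modularity
import Fermat.Agent.MUL.Lib.BadRed.Bridge.NormProd

/-!
# S52 (3-5 switch): interface statements between the pieces (helper52)
-/

set_option autoImplicit false

open WeierstrassCurve WeierstrassCurve.Affine

namespace Fermat.Agent.S52

/-- The short Weierstrass curve `y² = x³ + A x + B`. -/
def shortW {R : Type*} [CommRing R] (A B : R) : WeierstrassCurve R := ⟨0, 0, 0, A, B⟩

/-- Frobenius on the points of a curve over `ZMod ℓ` with values in an extension field `k`. -/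
noncomputable def frobPt {ℓ : ℕ} [Fact ℓ.Prime] (E : WeierstrassCurve (ZMod ℓ))
    (k : Type*) [Field k] [Algebra (ZMod ℓ) k] [DecidableEq k] :
    (E⁄k).Point →+ (E⁄k).Point :=
  Affine.Point.map (W' := E) (FiniteField.frobeniusAlgHom (ZMod ℓ) k)

/-- (F1, finite-field core) Cayley–Hamilton for Frobenius on points. -/
def FrobCharEq : Prop :=
  ∀ (ℓ : ℕ) [Fact ℓ.Prime], 5 ≤ ℓ → ∀ (A B : ZMod ℓ), (shortW A B).Δ ≠ 0 →
    ∀ (k : Type) [Field k] [Algebra (ZMod ℓ) k] [IsAlgClosed k] [DecidableEq k]
      (P : ((shortW A B)⁄k).Point),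
      frobPt (shortW A B) k (frobPt (shortW A B) k P)
        - (shortW A B).traceOfFrobenius • frobPt (shortW A B) k P + (ℓ : ℤ) • P = 0

end Fermat.Agent.S52
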